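/-
Cluster E' (Mazur), S12 side, seat U' (helper77): the MOEBIUS LEMMA.

`k` algebraically closed of characteristic `0`, `G ⊆ k` cofinite, `f : k → k` bijective,
`P₁/Q₁`, `P₂/Q₂` rational functions without poles on `G`, with `f ∘ (P₁/Q₁) = P₂/Q₂` on `G` and
`P₁/Q₁ : G → k` surjective.  Then `f` is an affine map `c ↦ α c + β`, `α ≠ 0`.
-/
import Mathlib

set_option autoImplicit false
set_option linter.unusedSectionVars false

open Polynomial

namespace Fermat.Agent.EU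

variable {k : Type*} [Field k]

/-- two coprime polynomials have no common zero -/
theorem moeb_not_both_zero {P Q : k[X]} (h : IsCoprime P Q) (x : k) (hP : P.eval x = 0)
    (hQ : Q.eval x = 0) : False := by
  obtain ⟨u, v, huv⟩ := h
  have := congrArg (eval x) huv
  simp [hP, hQ] at this

/-- the Wronskian of two coprime polynomials, not both constant, is nonzero (char. `0`) -/
theorem moeb_wronskian_ne_zero [CharZero k] {P Q : k[X]} (h : IsCoprime P Q)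
    (hnc : ¬ (P.natDegree = 0 ∧ Q.natDegree = 0)) :
    P * derivative Q - derivative P * Q ≠ 0 := by
  intro h0
  have h1 : P * derivative Q = derivative P * Q := sub_eq_zero.mp h0
  have hP : P ∣ derivative P := h.dvd_of_dvd_mul_right ⟨derivative Q, h1.symm⟩
  have hQ : Q ∣ derivative Q := by
    refine h.symm.dvd_of_dvd_mul_right (y := derivative Q) (z := P) ⟨derivative P, ?_⟩
    rw [mul_comm, h1, mul_comm]
  apply hnc
  constructor
  · by_contra hd
    have := eq_zero_of_dvd_of_natDegree_lt hP (natDegree_derivative_lt hd)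
    exact hd (Polynomial.derivative_eq_zero.mp this)
  · by_contra hd
    have := eq_zero_of_dvd_of_natDegree_lt hQ (natDegree_derivative_lt hd)
    exact hd (Polynomial.derivative_eq_zero.mp this)

/-- if the coefficients of index `max (deg P) (deg Q)` of `P` and `Q` vanish, then `P = Q = 0` -/
theorem moeb_eq_zero_of_coeff_max {P Q : k[X]}
    (hP : P.coeff (max P.natDegree Q.natDegree) = 0)
    (hQ : Q.coeff (max P.natDegree Q.natDegree) = 0) : P = 0 ∧ Q = 0 := by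
  rcases le_total Q.natDegree P.natDegree with hle | hle
  · rw [max_eq_left hle] at hP hQ
    have hP0 : P = 0 := leadingCoeff_eq_zero.mp hP
    subst hP0
    rw [natDegree_zero] at hle hQ
    have hQd : Q.natDegree = 0 := Nat.le_zero.mp hle
    refine ⟨rfl, ?_⟩
    rw [eq_C_of_natDegree_eq_zero hQd, hQ, C_0]
  · rw [max_eq_right hle] at hP hQ
    have hQ0 : Q = 0 := leadingCoeff_eq_zero.mp hQ
    subst hQ0
    rw [natDegree_zero] at hle hP
    have hPd : P.natDegree = 0 := Nat.le_zero.mp hle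
    refine ⟨?_, rfl⟩
    rw [eq_C_of_natDegree_eq_zero hPd, hP, C_0]

/-- reduction to lowest terms -/
theorem moeb_exists_coprime (P Q : k[X]) (hQ : Q ≠ 0) :
    ∃ g P' Q' : k[X], P = g * P' ∧ Q = g * Q' ∧ IsCoprime P' Q' := by
  classical
  refine ⟨GCDMonoid.gcd P Q, P / GCDMonoid.gcd P Q, Q / GCDMonoid.gcd P Q, ?_, ?_,
    isCoprime_div_gcd_div_gcd hQ⟩
  · exact (EuclideanDomain.mul_div_cancel' (gcd_ne_zero_of_right hQ) (gcd_dvd_left _ _)).symm
  · exact (EuclideanDomain.mul_div_cancel' (gcd_ne_zero_of_right hQ) (gcd_dvd_right _ _)).symm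

section main

variable [IsAlgClosed k] [CharZero k]

/-- the hypotheses of the Moebius lemma (one direction) -/
structure MoebData (P₁ Q₁ P₂ Q₂ : k[X]) (G : Set k) (f : k → k) : Prop where
  cop₁ : IsCoprime P₁ Q₁
  cop₂ : IsCoprime P₂ Q₂
  cofinite : Gᶜ.Finite
  inj : Function.Injective f
  den₁ : ∀ x ∈ G, Q₁.eval x ≠ 0
  den₂ : ∀ x ∈ G, Q₂.eval x ≠ 0
  rel : ∀ x ∈ G, f (P₁.eval x / Q₁.eval x) = P₂.eval x / Q₂.eval x
  surj : ∀ c : k, ∃ x ∈ G, P₁.eval x / Q₁.eval x = c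

variable {P₁ Q₁ P₂ Q₂ : k[X]} {G : Set k} {f : k → k}

theorem MoebData.not_const₁ (h : MoebData P₁ Q₁ P₂ Q₂ G f) :
    ¬ (P₁.natDegree = 0 ∧ Q₁.natDegree = 0) := by
  rintro ⟨hP, hQ⟩
  obtain ⟨x₀, -, h0⟩ := h.surj 0
  obtain ⟨x₁, -, h1⟩ := h.surj 1
  rw [eq_C_of_natDegree_eq_zero hP, eq_C_of_natDegree_eq_zero hQ] at h0 h1
  simp only [eval_C] at h0 h1
  exact zero_ne_one (h0.symm.trans h1)

theorem MoebData.ne_zero₂ (h : MoebData P₁ Q₁ P₂ Q₂ G f) (e : k) : P₂ - C e * Q₂ ≠ 0 := by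
  intro h0
  have hP : P₂ = C e * Q₂ := sub_eq_zero.mp h0
  obtain ⟨x₀, hx₀, h0'⟩ := h.surj 0
  obtain ⟨x₁, hx₁, h1'⟩ := h.surj 1
  have e0 := h.rel x₀ hx₀
  have e1 := h.rel x₁ hx₁
  rw [h0', hP, eval_mul, eval_C, mul_div_assoc, div_self (h.den₂ x₀ hx₀), mul_one] at e0
  rw [h1', hP, eval_mul, eval_C, mul_div_assoc, div_self (h.den₂ x₁ hx₁), mul_one] at e1
  exact zero_ne_one (h.inj (e0.trans e1.symm))

/-- the exceptional set of the Moebius lemma -/
def moebExc (P₁ Q₁ : k[X]) (G : Set k) : Set k :=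
  (fun x => P₁.eval x / Q₁.eval x) ''
      (Gᶜ ∪ {x | (P₁ * derivative Q₁ - derivative P₁ * Q₁).IsRoot x}) ∪
    {P₁.coeff (max P₁.natDegree Q₁.natDegree) / Q₁.coeff (max P₁.natDegree Q₁.natDegree)}

theorem MoebData.finite_exc (h : MoebData P₁ Q₁ P₂ Q₂ G f) : (moebExc P₁ Q₁ G).Finite := by
  unfold moebExc
  refine Set.Finite.union (Set.Finite.image _ (Set.Finite.union h.cofinite ?_))
    (Set.finite_singleton _)
  exact Polynomial.finite_setOfPred_isRoot (moeb_wronskian_ne_zero h.cop₁ h.not_const₁)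

/-- a root of `P₁ - c Q₁`, `c` not exceptional, is a good point with `P₁/Q₁ = c` where the
Wronskian does not vanish -/
theorem MoebData.root_spec (h : MoebData P₁ Q₁ P₂ Q₂ G f) {c : k} (hc : c ∉ moebExc P₁ Q₁ G)
    {x : k} (hx : (P₁ - C c * Q₁).eval x = 0) :
    x ∈ G ∧ Q₁.eval x ≠ 0 ∧ P₁.eval x / Q₁.eval x = c ∧
      (P₁ * derivative Q₁ - derivative P₁ * Q₁).eval x ≠ 0 := by
  rw [eval_sub, eval_mul, eval_C, sub_eq_zero] at hx
  have hQ : Q₁.eval x ≠ 0 := by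
    intro hQ0
    rw [hQ0, mul_zero] at hx
    exact moeb_not_both_zero h.cop₁ x hx hQ0
  have hR : P₁.eval x / Q₁.eval x = c := by
    rw [hx, mul_div_assoc, div_self hQ, mul_one]
  refine ⟨?_, hQ, hR, ?_⟩
  · by_contra hxG
    exact hc (Or.inl ⟨x, Or.inl hxG, hR⟩)
  · intro hW
    exact hc (Or.inl ⟨x, Or.inr hW, hR⟩)

theorem MoebData.separable (h : MoebData P₁ Q₁ P₂ Q₂ G f) {c : k} (hc : c ∉ moebExc P₁ Q₁ G) :
    (P₁ - C c * Q₁).Separable := by
  rw [separable_def, isCoprime_iff_aeval_ne_zero_of_isAlgClosed k k]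
  intro a
  by_contra hcon
  push Not at hcon
  obtain ⟨h1, h2⟩ := hcon
  rw [coe_aeval_eq_eval] at h1 h2
  obtain ⟨-, -, -, hW⟩ := h.root_spec hc h1
  apply hW
  have e1 : P₁.eval a = c * Q₁.eval a := by
    have := h1
    rw [eval_sub, eval_mul, eval_C, sub_eq_zero] at this
    exact this
  have e2 : (derivative P₁).eval a = c * (derivative Q₁).eval a := by
    have := h2
    rw [derivative_sub, derivative_C_mul, eval_sub, eval_mul, eval_C, sub_eq_zero] at this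
    exact this
  rw [eval_sub, eval_mul, eval_mul, e1, e2]
  ring

theorem MoebData.natDegree_eq (h : MoebData P₁ Q₁ P₂ Q₂ G f) {c : k}
    (hc : c ∉ moebExc P₁ Q₁ G) :
    (P₁ - C c * Q₁).natDegree = max P₁.natDegree Q₁.natDegree := by
  apply le_antisymm
  · exact (natDegree_sub_le _ _).trans (max_le_max le_rfl (natDegree_C_mul_le _ _))
  · apply le_natDegree_of_ne_zero
    rw [coeff_sub, coeff_C_mul]
    set m := max P₁.natDegree Q₁.natDegree with hm
    intro h0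
    have h0' : P₁.coeff m = c * Q₁.coeff m := sub_eq_zero.mp h0
    by_cases hQ : Q₁.coeff m = 0
    · rw [hQ, mul_zero] at h0'
      obtain ⟨hP0, hQ0⟩ := moeb_eq_zero_of_coeff_max h0' hQ
      have := h.cop₁
      rw [hP0, hQ0] at this
      exact not_isCoprime_zero_zero this
    · apply hc
      right
      rw [Set.mem_singleton_iff, h0', mul_div_assoc, div_self hQ, mul_one]

/-- **divisibility**: for `c` not exceptional, `P₁ - c Q₁` divides `P₂ - f(c) Q₂`. -/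
theorem MoebData.dvd (h : MoebData P₁ Q₁ P₂ Q₂ G f) {c : k} (hc : c ∉ moebExc P₁ Q₁ G) :
    (P₁ - C c * Q₁) ∣ (P₂ - C (f c) * Q₂) := by
  have hsep := h.separable hc
  refine Splits.dvd_of_roots_le_roots (IsAlgClosed.splits _) hsep.ne_zero ?_
  rw [Multiset.le_iff_subset (nodup_roots hsep)]
  intro x hx
  rw [mem_roots hsep.ne_zero, IsRoot.def] at hx
  obtain ⟨hxG, hQ, hR, -⟩ := h.root_spec hc hx
  rw [mem_roots (h.ne_zero₂ (f c)), IsRoot.def, eval_sub, eval_mul, eval_C, ← hR, h.rel x hxG,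
    div_mul_cancel₀ _ (h.den₂ x hxG), sub_self]

theorem MoebData.exists_not_mem_exc (h : MoebData P₁ Q₁ P₂ Q₂ G f) (T : Set k) (hT : T.Finite) :
    ∃ c : k, c ∉ moebExc P₁ Q₁ G ∧ c ∉ T := by
  have hfin : (moebExc P₁ Q₁ G ∪ T).Finite := h.finite_exc.union hT
  obtain ⟨c, hc⟩ := hfin.exists_notMem
  exact ⟨c, fun h1 => hc (Or.inl h1), fun h2 => hc (Or.inr h2)⟩

/-- the degree inequality `deg (P₁/Q₁) ≤ deg (P₂/Q₂)` -/
theorem MoebData.degree_le (h : MoebData P₁ Q₁ P₂ Q₂ G f) :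
    max P₁.natDegree Q₁.natDegree ≤ max P₂.natDegree Q₂.natDegree := by
  obtain ⟨c, hc, -⟩ := h.exists_not_mem_exc ∅ Set.finite_empty
  rw [← h.natDegree_eq hc]
  refine (natDegree_le_of_dvd (h.dvd hc) (h.ne_zero₂ (f c))).trans ?_
  exact (natDegree_sub_le _ _).trans (max_le_max le_rfl (natDegree_C_mul_le _ _))

/-- the symmetric data, for the inverse of `f` -/
theorem MoebData.symm (h : MoebData P₁ Q₁ P₂ Q₂ G f) {g : k → k}
    (hgf : Function.LeftInverse g f) (hfg : Function.RightInverse g f) :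
    MoebData P₂ Q₂ P₁ Q₁ G g where
  cop₁ := h.cop₂
  cop₂ := h.cop₁
  cofinite := h.cofinite
  inj := hfg.injective
  den₁ := h.den₂
  den₂ := h.den₁
  rel := fun x hx => by rw [← h.rel x hx, hgf]
  surj := fun e => by
    obtain ⟨x, hx, hxc⟩ := h.surj (g e)
    refine ⟨x, hx, ?_⟩
    rw [← h.rel x hx, hxc, hfg]

/-- for `c` not exceptional, `P₂ - f(c) Q₂` is a constant multiple of `P₁ - c Q₁` -/
theorem MoebData.exists_eq_C_mul (h : MoebData P₁ Q₁ P₂ Q₂ G f)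
    (hdeg : max P₂.natDegree Q₂.natDegree ≤ max P₁.natDegree Q₁.natDegree) {c : k}
    (hc : c ∉ moebExc P₁ Q₁ G) :
    ∃ l : k, P₂ - C (f c) * Q₂ = C l * (P₁ - C c * Q₁) := by
  obtain ⟨r, hr⟩ := h.dvd hc
  have hq0 := h.ne_zero₂ (f c)
  have hp0 : P₁ - C c * Q₁ ≠ 0 := (h.separable hc).ne_zero
  have hr0 : r ≠ 0 := by
    rintro rfl
    rw [mul_zero] at hr
    exact hq0 hr
  have hd : (P₂ - C (f c) * Q₂).natDegree = (P₁ - C c * Q₁).natDegree + r.natDegree := by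
    rw [hr, natDegree_mul hp0 hr0]
  have hle : (P₂ - C (f c) * Q₂).natDegree ≤ max P₂.natDegree Q₂.natDegree :=
    (natDegree_sub_le _ _).trans (max_le_max le_rfl (natDegree_C_mul_le _ _))
  have hrd : r.natDegree = 0 := by
    have := h.natDegree_eq hc
    omega
  refine ⟨r.coeff 0, ?_⟩
  rw [hr, mul_comm]
  congr 1
  exact eq_C_of_natDegree_eq_zero hrd

/-- **the Moebius lemma, coprime case**: `P₂`, `Q₂` are linear combinations of `P₁`, `Q₁`. -/
theorem MoebData.exists_linear (h : MoebData P₁ Q₁ P₂ Q₂ G f) (hf : Function.Surjective f) :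
    ∃ α β γ δ : k, P₂ = C α * P₁ + C β * Q₁ ∧ Q₂ = C γ * P₁ + C δ * Q₁ := by
  have hbij : Function.Bijective f := ⟨h.inj, hf⟩
  obtain ⟨g, hgf, hfg⟩ := Function.bijective_iff_has_inverse.mp hbij
  have hdeg := (h.symm hgf hfg).degree_le
  obtain ⟨c₁, hc₁, -⟩ := h.exists_not_mem_exc ∅ Set.finite_empty
  obtain ⟨c₂, hc₂, hc₁₂⟩ := h.exists_not_mem_exc {c₁} (Set.finite_singleton c₁)
  have hne : c₂ ≠ c₁ := hc₁₂
  obtain ⟨l₁, e₁⟩ := h.exists_eq_C_mul hdeg hc₁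
  obtain ⟨l₂, e₂⟩ := h.exists_eq_C_mul hdeg hc₂
  have hε : f c₂ - f c₁ ≠ 0 := sub_ne_zero.mpr fun h0 => hne (h.inj h0)
  set ε := f c₂ - f c₁ with hεdef
  have hCε : C ε⁻¹ * C ε = (1 : k[X]) := by
    rw [← C_mul, inv_mul_cancel₀ hε, C_1]
  -- `Q₂`
  have hQ : C ε * Q₂ = C (l₁ - l₂) * P₁ + C (l₂ * c₂ - l₁ * c₁) * Q₁ := by
    simp only [hεdef, C_sub, C_mul]
    linear_combination e₁ - e₂
  have hQ' : Q₂ = C (ε⁻¹ * (l₁ - l₂)) * P₁ + C (ε⁻¹ * (l₂ * c₂ - l₁ * c₁)) * Q₁ := by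
    have : Q₂ = C ε⁻¹ * (C ε * Q₂) := by rw [← mul_assoc, hCε, one_mul]
    rw [this, hQ]
    simp only [C_mul]
    ring
  refine ⟨l₁ + f c₁ * (ε⁻¹ * (l₁ - l₂)), f c₁ * (ε⁻¹ * (l₂ * c₂ - l₁ * c₁)) - l₁ * c₁,
    ε⁻¹ * (l₁ - l₂), ε⁻¹ * (l₂ * c₂ - l₁ * c₁), ?_, hQ'⟩
  have hP : P₂ = C l₁ * (P₁ - C c₁ * Q₁) + C (f c₁) * Q₂ := by
    rw [← e₁]
    ring
  rw [hP]
  nth_rewrite 1 [hQ']
  simp only [C_mul, C_add, C_sub]
  ring

/-- **the Moebius lemma, coprime case**. -/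
theorem MoebData.affine (h : MoebData P₁ Q₁ P₂ Q₂ G f) (hf : Function.Surjective f) :
    ∃ α β : k, α ≠ 0 ∧ ∀ c, f c = α * c + β := by
  obtain ⟨α, β, γ, δ, hP, hQ⟩ := h.exists_linear hf
  have key : ∀ c : k, γ * c + δ ≠ 0 ∧ f c * (γ * c + δ) = α * c + β := by
    intro c
    obtain ⟨x, hx, hxc⟩ := h.surj c
    have hb := h.den₁ x hx
    have hd := h.den₂ x hx
    have hr := h.rel x hx
    have ha : P₁.eval x = c * Q₁.eval x := by
      rw [← hxc, div_mul_cancel₀ _ hb]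
    have eP : P₂.eval x = (α * c + β) * Q₁.eval x := by
      rw [hP, eval_add, eval_mul, eval_mul, eval_C, eval_C, ha]
      ring
    have eQ : Q₂.eval x = (γ * c + δ) * Q₁.eval x := by
      rw [hQ, eval_add, eval_mul, eval_mul, eval_C, eval_C, ha]
      ring
    have hne : γ * c + δ ≠ 0 := by
      intro h0
      rw [h0, zero_mul] at eQ
      exact hd eQ
    refine ⟨hne, ?_⟩
    rw [hxc, eP, eQ, mul_div_mul_right _ _ hb] at hr
    rw [hr, div_mul_cancel₀ _ hne]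
  have hγ : γ = 0 := by
    by_contra hγ
    have := (key (-δ / γ)).1
    apply this
    field_simp
    ring
  have hδ : δ ≠ 0 := by
    have := (key 0).1
    rwa [mul_zero, zero_add] at this
  refine ⟨α / δ, β / δ, ?_, ?_⟩
  · intro h0
    have hα : α = 0 := by
      rcases div_eq_zero_iff.mp h0 with h1 | h1
      · exact h1
      · exact absurd h1 hδ
    have e0 := (key 0).2
    have e1 := (key 1).2
    rw [hγ, hα] at e0 e1
    simp only [zero_mul, zero_add] at e0 e1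
    have : f 0 = f 1 := mul_right_cancel₀ hδ (e0.trans e1.symm)
    exact zero_ne_one (h.inj this)
  · intro c
    have := (key c).2
    rw [hγ, zero_mul, zero_add] at this
    field_simp
    linear_combination this

/-- **The Moebius lemma.**  `k` algebraically closed of characteristic `0`, `G ⊆ k` cofinite,
`f : k → k` bijective, `P₁/Q₁`, `P₂/Q₂` without poles on `G`, `f ∘ (P₁/Q₁) = P₂/Q₂` on `G` and
`P₁/Q₁ : G → k` surjective.  Then `f` is affine. -/
theorem moebius_affine (P₁ Q₁ P₂ Q₂ : k[X]) (G : Set k) (hG : Gᶜ.Finite) (f : k → k)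
    (hf : Function.Bijective f)
    (hden₁ : ∀ x ∈ G, Q₁.eval x ≠ 0) (hden₂ : ∀ x ∈ G, Q₂.eval x ≠ 0)
    (hrel : ∀ x ∈ G, f (P₁.eval x / Q₁.eval x) = P₂.eval x / Q₂.eval x)
    (hsurj : ∀ c : k, ∃ x ∈ G, P₁.eval x / Q₁.eval x = c) :
    ∃ α β : k, α ≠ 0 ∧ ∀ c, f c = α * c + β := by
  obtain ⟨x₀, hx₀, -⟩ := hsurj 0
  have hQ₁0 : Q₁ ≠ 0 := by
    rintro rfl
    exact hden₁ x₀ hx₀ eval_zero
  have hQ₂0 : Q₂ ≠ 0 := by
    rintro rfl
    exact hden₂ x₀ hx₀ eval_zero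
  obtain ⟨g₁, P₁', Q₁', eP₁, eQ₁, hcop₁⟩ := moeb_exists_coprime P₁ Q₁ hQ₁0
  obtain ⟨g₂, P₂', Q₂', eP₂, eQ₂, hcop₂⟩ := moeb_exists_coprime P₂ Q₂ hQ₂0
  have hg₁ : ∀ x ∈ G, g₁.eval x ≠ 0 ∧ Q₁'.eval x ≠ 0 := by
    intro x hx
    have := hden₁ x hx
    rw [eQ₁, eval_mul] at this
    exact mul_ne_zero_iff.mp this
  have hg₂ : ∀ x ∈ G, g₂.eval x ≠ 0 ∧ Q₂'.eval x ≠ 0 := by
    intro x hx
    have := hden₂ x hx
    rw [eQ₂, eval_mul] at this
    exact mul_ne_zero_iff.mp this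
  have hR₁ : ∀ x ∈ G, P₁.eval x / Q₁.eval x = P₁'.eval x / Q₁'.eval x := by
    intro x hx
    rw [eP₁, eQ₁, eval_mul, eval_mul, mul_div_mul_left _ _ (hg₁ x hx).1]
  have hR₂ : ∀ x ∈ G, P₂.eval x / Q₂.eval x = P₂'.eval x / Q₂'.eval x := by
    intro x hx
    rw [eP₂, eQ₂, eval_mul, eval_mul, mul_div_mul_left _ _ (hg₂ x hx).1]
  have hdata : MoebData P₁' Q₁' P₂' Q₂' G f :=
    { cop₁ := hcop₁
      cop₂ := hcop₂
      cofinite := hG
      inj := hf.1
      den₁ := fun x hx => (hg₁ x hx).2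
      den₂ := fun x hx => (hg₂ x hx).2
      rel := fun x hx => by rw [← hR₁ x hx, ← hR₂ x hx, hrel x hx]
      surj := fun c => by
        obtain ⟨x, hx, hxc⟩ := hsurj c
        exact ⟨x, hx, by rw [← hR₁ x hx, hxc]⟩ }
  exact hdata.affine hf.2

end main

end Fermat.Agent.EU
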