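/-
Cluster E' (Mazur), S12 side, seat U' (helper77): elementary facts on the points of an elliptic
curve over an algebraically closed field, and the cubic lemma.

* `exists_nonsingular`  : every `x ∈ k` is the `x`-coordinate of a point;
* `eq_or_eq_neg_of_ptX_eq` : nonzero points with the same `x` are equal or opposite;
* `twoTorsion_iff`      : `P = -P ↔ T(x(P)) = 0` for the 2-division cubic `T`;
* `cubic_affine`        : if `c ↦ α c + β` maps the roots of `T₁` to roots of `T₂` then
                          `c₄(W₂) = α² c₄(W₁)` and `Δ(W₂) = α⁶ Δ(W₁)`.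
-/
import Mathlib
import Fermat.Agent.E.S12.VeluSpec

set_option autoImplicit false
set_option linter.unusedSectionVars false

open WeierstrassCurve WeierstrassCurve.Affine

namespace Fermat.Agent.EU

open Fermat.Agent.EV

variable {k : Type*} [Field k] [DecidableEq k]

/-! ### points -/

theorem ptX_some {W : Affine k} (x y : k) (h : W.Nonsingular x y) :
    ptX (Point.some x y h : W.Point) = x := rfl

theorem ptX_neg {W : Affine k} (P : W.Point) : ptX (-P) = ptX P := by
  rcases P with _ | ⟨x, y, h⟩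
  · rfl
  · rw [Point.neg_some]
    rfl

/-- a nonzero point is affine -/
theorem exists_eq_some {W : Affine k} {P : W.Point} (hP : P ≠ 0) :
    ∃ (x y : k) (h : W.Nonsingular x y), P = .some x y h := by
  rcases P with _ | ⟨x, y, h⟩
  · exact absurd rfl hP
  · exact ⟨x, y, h, rfl⟩

/-- nonzero points with the same `x`-coordinate are equal or opposite -/
theorem eq_or_eq_neg_of_ptX_eq {W : Affine k} {P Q : W.Point} (hP : P ≠ 0) (hQ : Q ≠ 0)
    (h : ptX P = ptX Q) : P = Q ∨ P = -Q := by
  rcases P with _ | ⟨x₁, y₁, h₁⟩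
  · exact absurd rfl hP
  rcases Q with _ | ⟨x₂, y₂, h₂⟩
  · exact absurd rfl hQ
  have hx : x₁ = x₂ := h
  subst hx
  rcases Y_eq_of_X_eq h₁.1 h₂.1 rfl with hy | hy
  · left
    subst hy
    rfl
  · right
    rw [Point.neg_some]
    subst hy
    rfl

/-- every `x` is the `x`-coordinate of a point of an elliptic curve over an algebraically closed
field -/
theorem exists_nonsingular [IsAlgClosed k] (W : Affine k) (hΔ : W.Δ ≠ 0) (x : k) :
    ∃ y : k, W.Nonsingular x y := by
  have : W.IsElliptic := W.isElliptic_iff.mpr (isUnit_iff_ne_zero.mpr hΔ)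
  set p : Polynomial k := Polynomial.X ^ 2 + Polynomial.C (W.a₁ * x + W.a₃) * Polynomial.X
    - Polynomial.C (x ^ 3 + W.a₂ * x ^ 2 + W.a₄ * x + W.a₆) with hp
  have hdeg : p.degree = 2 := by
    rw [hp]
    compute_degree!
  obtain ⟨y, hy⟩ := IsAlgClosed.exists_root p (by rw [hdeg]; exact two_ne_zero)
  refine ⟨y, equation_iff_nonsingular.mp ?_⟩
  rw [equation_iff]
  rw [Polynomial.IsRoot.def, hp] at hy
  simp only [Polynomial.eval_sub, Polynomial.eval_add, Polynomial.eval_pow, Polynomial.eval_X,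
    Polynomial.eval_mul, Polynomial.eval_C] at hy
  linear_combination hy

/-- every `x` is the `x`-coordinate of a nonzero point -/
theorem exists_point_ptX [IsAlgClosed k] (W : Affine k) (hΔ : W.Δ ≠ 0) (x : k) :
    ∃ P : W.Point, P ≠ 0 ∧ ptX P = x := by
  obtain ⟨y, h⟩ := exists_nonsingular W hΔ x
  exact ⟨.some x y h, Point.some_ne_zero h, rfl⟩

/-! ### the 2-division cubic -/

/-- the value of the 2-division cubic `4 x³ + b₂ x² + 2 b₄ x + b₆` -/
def twoT (W : Affine k) (x : k) : k := 4 * x ^ 3 + W.b₂ * x ^ 2 + 2 * W.b₄ * x + W.b₆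

theorem twoT_eq_sq {W : Affine k} {x y : k} (h : W.Equation x y) :
    twoT W x = (2 * y + W.a₁ * x + W.a₃) ^ 2 := by
  rw [equation_iff] at h
  unfold twoT
  simp only [WeierstrassCurve.b₂, WeierstrassCurve.b₄, WeierstrassCurve.b₆]
  linear_combination -4 * h

/-- a nonzero point is `2`-torsion iff its `x`-coordinate is a root of the 2-division cubic -/
theorem twoTorsion_iff [CharZero k] {W : Affine k} {P : W.Point} (hP : P ≠ 0) :
    P = -P ↔ twoT W (ptX P) = 0 := by
  rcases P with _ | ⟨x, y, h⟩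
  · exact absurd rfl hP
  rw [Point.neg_some, ptX_some, twoT_eq_sq h.1]
  have hiff : y = W.negY x y ↔ 2 * y + W.a₁ * x + W.a₃ = 0 := by
    simp only [negY]
    constructor
    · intro h1
      linear_combination h1
    · intro h1
      linear_combination h1
  constructor
  · intro h1
    have : y = W.negY x y := by
      simp only [Point.some.injEq, true_and] at h1
      exact h1
    rw [hiff.mp this]
    ring
  · intro h1
    have h2 : 2 * y + W.a₁ * x + W.a₃ = 0 := by
      rcases pow_eq_zero_iff (two_ne_zero) |>.mp h1 with h3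
      exact h3
    have h3 := hiff.mpr h2
    simp only [Point.some.injEq, true_and]
    exact h3

/-! ### the cubic lemma -/

/-- **the cubic lemma**: if the affine map `c ↦ α c + β` (`α ≠ 0`) maps the roots of the
2-division cubic of `W₁` to roots of the 2-division cubic of `W₂`, then `c₄(W₂) = α² c₄(W₁)`
and `Δ(W₂) = α⁶ Δ(W₁)`. -/
theorem cubic_affine [IsAlgClosed k] [CharZero k] (W₁ W₂ : Affine k) (hΔ₁ : W₁.Δ ≠ 0)
    {α β : k} (hα : α ≠ 0)
    (hroots : ∀ c : k, twoT W₁ c = 0 → twoT W₂ (α * c + β) = 0) :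
    W₂.c₄ = α ^ 2 * W₁.c₄ ∧ W₂.Δ = α ^ 6 * W₁.Δ := by
  have h4 : (4 : k) ≠ 0 := by norm_num
  have h16 : (16 : k) ≠ 0 := by norm_num
  have ha₁ : W₁.twoTorsionPolynomial.a ≠ 0 := h4
  have ha₂ : W₂.twoTorsionPolynomial.a ≠ 0 := h4
  have hd₁ : W₁.twoTorsionPolynomial.discr ≠ 0 := by
    rw [twoTorsionPolynomial_discr]
    exact mul_ne_zero h16 hΔ₁
  -- the roots of `T₁`
  obtain ⟨x, y, z, h3⟩ := (Cubic.splits_iff_roots_eq_three (φ := RingHom.id k) ha₁).mp
    (IsAlgClosed.splits _)
  obtain ⟨hxy, hxz, hyz⟩ := (Cubic.discr_ne_zero_iff_roots_ne ha₁ h3).mp hd₁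
  have hmem₁ : ∀ c : k, c ∈ (Cubic.map (RingHom.id k) W₁.twoTorsionPolynomial).roots ↔
      twoT W₁ c = 0 := by
    intro c
    have e : Cubic.map (RingHom.id k) W₁.twoTorsionPolynomial = W₁.twoTorsionPolynomial := rfl
    rw [e, Cubic.mem_roots_iff (Cubic.ne_zero_of_a_ne_zero ha₁)]
    rfl
  have hmem₂ : ∀ c : k, c ∈ (Cubic.map (RingHom.id k) W₂.twoTorsionPolynomial).roots ↔
      twoT W₂ c = 0 := by
    intro c
    have e : Cubic.map (RingHom.id k) W₂.twoTorsionPolynomial = W₂.twoTorsionPolynomial := rfl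
    rw [e, Cubic.mem_roots_iff (Cubic.ne_zero_of_a_ne_zero ha₂)]
    rfl
  have hx : twoT W₁ x = 0 := (hmem₁ x).mp (by rw [h3]; simp)
  have hy : twoT W₁ y = 0 := (hmem₁ y).mp (by rw [h3]; simp)
  have hz : twoT W₁ z = 0 := (hmem₁ z).mp (by rw [h3]; simp)
  -- the roots of `T₂`
  have hcard : (Cubic.map (RingHom.id k) W₂.twoTorsionPolynomial).roots.card = 3 :=
    (Cubic.splits_iff_card_roots (φ := RingHom.id k) ha₂).mp (IsAlgClosed.splits _)
  have hinj : ∀ {c c' : k}, c ≠ c' → α * c + β ≠ α * c' + β := by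
    intro c c' hne h0
    exact hne (mul_left_cancel₀ hα (add_right_cancel h0))
  have hnd : ({α * x + β, α * y + β, α * z + β} : Multiset k).Nodup := by
    change (_ ::ₘ _ ::ₘ {_}).Nodup
    rw [Multiset.nodup_cons, Multiset.nodup_cons, Multiset.mem_cons, Multiset.mem_singleton,
      Multiset.mem_singleton]
    exact ⟨fun h => h.elim (hinj hxy) (hinj hxz), hinj hyz, Multiset.nodup_singleton _⟩
  have hsub : ({α * x + β, α * y + β, α * z + β} : Multiset k) ≤
      (Cubic.map (RingHom.id k) W₂.twoTorsionPolynomial).roots := by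
    rw [Multiset.le_iff_subset hnd]
    intro c hc
    change c ∈ (_ ::ₘ _ ::ₘ {_}) at hc
    rw [Multiset.mem_cons, Multiset.mem_cons, Multiset.mem_singleton] at hc
    rw [hmem₂]
    rcases hc with rfl | rfl | rfl
    · exact hroots x hx
    · exact hroots y hy
    · exact hroots z hz
  have h3' : (Cubic.map (RingHom.id k) W₂.twoTorsionPolynomial).roots =
      {α * x + β, α * y + β, α * z + β} := by
    symm
    refine Multiset.eq_of_le_of_card_le hsub ?_
    rw [hcard]
    rfl
  -- symmetric functions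
  have b₁ := Cubic.b_eq_three_roots ha₁ h3
  have c₁ := Cubic.c_eq_three_roots ha₁ h3
  have b₂ := Cubic.b_eq_three_roots ha₂ h3'
  have c₂ := Cubic.c_eq_three_roots ha₂ h3'
  have d₁ := Cubic.discr_eq_prod_three_roots ha₁ h3
  have d₂ := Cubic.discr_eq_prod_three_roots ha₂ h3'
  simp only [RingHom.id_apply, twoTorsionPolynomial] at b₁ c₁ b₂ c₂
  rw [RingHom.id_apply, twoTorsionPolynomial_discr] at d₁ d₂
  simp only [RingHom.id_apply, twoTorsionPolynomial] at d₁ d₂
  have c₁' : W₁.b₄ = 2 * (x * y + x * z + y * z) := by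
    have h2 : (2 : k) ≠ 0 := two_ne_zero
    apply mul_left_cancel₀ h2
    rw [c₁]
    ring
  have c₂' : W₂.b₄ = 2 * ((α * x + β) * (α * y + β) + (α * x + β) * (α * z + β)
      + (α * y + β) * (α * z + β)) := by
    have h2 : (2 : k) ≠ 0 := two_ne_zero
    apply mul_left_cancel₀ h2
    rw [c₂]
    ring
  constructor
  · simp only [WeierstrassCurve.c₄]
    rw [b₁, b₂, c₁', c₂']
    ring
  · apply mul_left_cancel₀ h16
    linear_combination d₂ - α ^ 6 * d₁

end Fermat.Agent.EU
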